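/-
Programme T1B (row 38 via S44), brick 533 `P1 PLUMBING` (helper66), part 1: INERTIA.

Dictionary between the LOCAL inertia group `I_p = {τ ∈ G_p | IsInertial p τ}`, `G_p = Gal(ℚ̄_p/ℚ_p)`
(the model of `TW/B5/Iface`), and the GLOBAL inertia group `I_A = A.inertiaSubgroupIn ℚ ⊂ G_ℚ` of the
canonical place `A = padicPlace p` of `ℚ̄` (Prelude vocabulary), through
`res = localGaloisToGlobal p : G_p → G_ℚ` and `ι = padicEmbedding p : ℚ̄ → ℚ̄_p`.

* `exists_root_preimage`   : every root of unity (more generally every root of a rational polynomial) of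
  `ℚ̄_p` is `ι` of an element of `ℚ̄`;
* `exists_close`           : every integral `y ∈ ℚ̄_p` is congruent modulo the maximal ideal to `ι a`,
  `a ∈ A` (Teichmüller representatives);
* **`isInertial_iff`**     : `IsInertial p τ ↔ res τ ∈ I_A`;
* `Ip p : Subgroup (Gp p)` : the local inertia group (`mem_Ip`), normal (`normal_Ip`);
* **`map_Ip`**             : `res (I_p) = I_A`;  `exists_inertial` (surjectivity, elementwise);
* `forall_IA_iff`          : `(∀ σ ∈ I_A, P σ) ↔ ∀ τ, IsInertial p τ → P (res τ)`;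
* `map_top`                : `res (G_p) = A.decompositionSubgroup ℚ` (from `TWP59/LocSurj96`);
* `forall_DA_iff`          : `(∀ σ ∈ D_A, P σ) ↔ ∀ g : G_p, P (res g)`.
-/
import Mathlib
import Fermat.Prelude.Def_GaloisRep_CompletionBridge
import Fermat.Agent.S05.Inertia
import Fermat.Agent.TW.B5.Iface
import Fermat.Agent.TW.B5.LG83B
import Fermat.Agent.TW.TWP59.LocSurj96
import Fermat.Agent.T1.LocModel46.Basic

set_option autoImplicit false

open Polynomial
open Fermat.Agent.TW.B5.Iface Fermat.Agent.T1.LocModel46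

namespace Fermat.Agent.T1B.Plumb66.Inertia

local notation "Qbar" => AlgebraicClosure ℚ
local notation "Γ" => (AlgebraicClosure ℚ ≃ₐ[ℚ] AlgebraicClosure ℚ)

variable (p : ℕ) [Fact p.Prime]

/-! ### Elements of `ℚ̄_p` algebraic over `ℚ` -/

/-- Every root in `ℚ̄_p` of a nonzero rational polynomial is the image of an element of `ℚ̄`. -/
theorem exists_preimage_of_root (f : ℚ[X]) (hf : f ≠ 0) {c : Kbar p}
    (hc : Polynomial.aeval c f = 0) : ∃ z : Qbar, Polynomial.aeval z f = 0 ∧ padicEmbedding p z = c := by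
  have hsplit : (f.map (algebraMap ℚ Qbar)).Splits := IsAlgClosed.splits _
  have hmap : (f.map (algebraMap ℚ Qbar)).map ((padicEmbedding p : Qbar →ₐ[ℚ] Kbar p) : Qbar →+* Kbar p) =
      f.map (algebraMap ℚ (Kbar p)) := by
    rw [Polynomial.map_map]
    congr 1
    exact (padicEmbedding p : Qbar →ₐ[ℚ] Kbar p).comp_algebraMap
  have hne : f.map (algebraMap ℚ (Kbar p)) ≠ 0 :=
    (Polynomial.map_ne_zero_iff (algebraMap ℚ (Kbar p)).injective).2 hf
  have hroot : c ∈ (f.map (algebraMap ℚ (Kbar p))).roots := by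
    rw [Polynomial.mem_roots hne, Polynomial.IsRoot.def, Polynomial.eval_map_algebraMap]
    exact hc
  rw [← hmap, hsplit.roots_map, Multiset.mem_map] at hroot
  obtain ⟨z, hz, hzc⟩ := hroot
  refine ⟨z, ?_, hzc⟩
  have hne' : f.map (algebraMap ℚ Qbar) ≠ 0 :=
    (Polynomial.map_ne_zero_iff (algebraMap ℚ Qbar).injective).2 hf
  rw [Polynomial.mem_roots hne', Polynomial.IsRoot.def, Polynomial.eval_map_algebraMap] at hz
  exact hz

/-- Every root of unity of `ℚ̄_p` is the image of a root of unity of `ℚ̄`. -/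
theorem exists_root_preimage {m : ℕ} (hm : m ≠ 0) {c : Kbar p} (hc : c ^ m = 1) :
    ∃ z : Qbar, z ^ m = 1 ∧ padicEmbedding p z = c := by
  have hf : (X ^ m - 1 : ℚ[X]) ≠ 0 := Polynomial.X_pow_sub_C_ne_zero (Nat.pos_of_ne_zero hm) 1
  obtain ⟨z, hz, hzc⟩ := exists_preimage_of_root p (X ^ m - 1 : ℚ[X]) hf (c := c) (by
    simp [hc])
  refine ⟨z, ?_, hzc⟩
  have : z ^ m - 1 = 0 := by simpa using hz
  exact sub_eq_zero.1 this

/-- **Teichmüller representatives from `ℚ̄`**: every integral element of `ℚ̄_p` is congruent modulo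
the maximal ideal to the image of an element of the place. -/
theorem exists_close {y : Kbar p} (hy : ‖y‖ ≤ 1) :
    ∃ a : Qbar, a ∈ padicPlace p ∧ ‖y - padicEmbedding p a‖ < 1 := by
  classical
  have hfd : FiniteDimensional ℚ_[p] (IntermediateField.adjoin ℚ_[p] ({y} : Set (Kbar p))) :=
    IntermediateField.adjoin.finiteDimensional
      ((PadicAlgCl.isAlgebraic p).isAlgebraic y).isIntegral
  obtain ⟨m, hpm, hT⟩ := Fermat.Agent.TW.B5.LG83B.exists_teichmuller p
    (IntermediateField.adjoin ℚ_[p] ({y} : Set (Kbar p)))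
  obtain ⟨c, -, hc, hyc⟩ := hT y (IntermediateField.subset_adjoin _ _ rfl) hy
  rcases hc with rfl | hc
  · exact ⟨0, (padicPlace p).zero_mem, by simpa using hyc⟩
  · have hm : m ≠ 0 := fun h => hpm (h ▸ dvd_zero p)
    obtain ⟨z, -, hzc⟩ := exists_root_preimage p hm hc
    refine ⟨z, ?_, by rw [hzc]; exact hyc⟩
    rw [mem_place_iff_norm, hzc]
    have h1 : ‖c‖ ^ m = 1 := by rw [← norm_pow, hc, norm_one]
    exact le_of_eq ((pow_eq_one_iff_of_nonneg (norm_nonneg c) hm).1 h1)

/-! ### The two inertia conditions -/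

/-- The global inertia group of the canonical place over `p`. -/
noncomputable abbrev IA : Subgroup Γ := (padicPlace p).inertiaSubgroupIn ℚ

/-- The global decomposition group of the canonical place over `p`. -/
noncomputable abbrev DA : Subgroup Γ := (padicPlace p).decompositionSubgroup ℚ

/-- **`τ` is inertial iff its image in `G_ℚ` lies in the inertia group of the canonical place.** -/
theorem isInertial_iff (τ : Gp p) : IsInertial p τ ↔ localGaloisToGlobal p τ ∈ IA p := by
  refine ⟨res_mem_inertiaSubgroupIn p, fun hτ y hy => ?_⟩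
  obtain ⟨a, ha, hya⟩ := exists_close p hy
  have h1 : ‖τ (padicEmbedding p a) - padicEmbedding p a‖ < 1 := by
    have h := Fermat.Agent.S05.Inertia.valuation_sub_lt_one hτ
      ((ValuationSubring.valuation_le_one_iff _ a).2 ha)
    rw [valuation_sub_lt_one_iff, iota_res] at h
    exact h
  have h2 : ‖τ (y - padicEmbedding p a)‖ < 1 := by rw [norm_gal]; exact hya
  have h3 : ‖padicEmbedding p a - y‖ < 1 := by rw [norm_sub_rev]; exact hya
  have e : τ y - y = τ (y - padicEmbedding p a) +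
      ((τ (padicEmbedding p a) - padicEmbedding p a) + (padicEmbedding p a - y)) := by
    rw [map_sub]; ring
  rw [e]
  refine lt_of_le_of_lt (PadicAlgCl.isNonarchimedean p _ _) (max_lt h2 ?_)
  exact lt_of_le_of_lt (PadicAlgCl.isNonarchimedean p _ _) (max_lt h1 h3)

/-- The local inertia group `I_p ⊂ G_p`. -/
noncomputable def Ip : Subgroup (Gp p) := (IA p).comap (localGaloisToGlobal p)

theorem mem_Ip {τ : Gp p} : τ ∈ Ip p ↔ IsInertial p τ :=
  (isInertial_iff p τ).symm

theorem mem_Ip_iff_res {τ : Gp p} : τ ∈ Ip p ↔ localGaloisToGlobal p τ ∈ IA p := Iff.rfl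

/-- `res (G_p) = D_A`. -/
theorem map_top : (⊤ : Subgroup (Gp p)).map (localGaloisToGlobal p) = DA p := by
  ext σ
  rw [Subgroup.mem_map]
  constructor
  · rintro ⟨g, -, rfl⟩
    exact localGaloisToGlobal_mem_decompositionSubgroup p g
  · intro hσ
    obtain ⟨g, hg⟩ := Fermat.Agent.TW.TWP59.LocSurj96.localGaloisToGlobal_surjOn p σ hσ
    exact ⟨g, Subgroup.mem_top g, hg⟩

theorem res_mem_DA (g : Gp p) : localGaloisToGlobal p g ∈ DA p :=
  localGaloisToGlobal_mem_decompositionSubgroup p g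

theorem exists_res_eq {σ : Γ} (hσ : σ ∈ DA p) : ∃ g : Gp p, localGaloisToGlobal p g = σ :=
  Fermat.Agent.TW.TWP59.LocSurj96.localGaloisToGlobal_surjOn p σ hσ

theorem IA_le_DA : IA p ≤ DA p :=
  fun _ hσ => Fermat.Agent.S05.Inertia.mem_decompositionSubgroup hσ

/-- **Surjectivity of `res` on inertia**, elementwise. -/
theorem exists_inertial {σ : Γ} (hσ : σ ∈ IA p) :
    ∃ τ : Gp p, IsInertial p τ ∧ localGaloisToGlobal p τ = σ := by
  obtain ⟨g, hg⟩ := exists_res_eq p (IA_le_DA p hσ)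
  exact ⟨g, (isInertial_iff p g).2 (by rw [hg]; exact hσ), hg⟩

/-- **`res (I_p) = I_A`.** -/
theorem map_Ip : (Ip p).map (localGaloisToGlobal p) = IA p := by
  ext σ
  rw [Subgroup.mem_map]
  constructor
  · rintro ⟨τ, hτ, rfl⟩
    exact hτ
  · intro hσ
    obtain ⟨τ, hτ, hτσ⟩ := exists_inertial p hσ
    exact ⟨τ, (mem_Ip p).2 hτ, hτσ⟩

/-- `I_A` is normal in `D_A` (elementwise form). -/
theorem conj_mem_IA {σ0 τ : Γ} (h0 : σ0 ∈ DA p) (hτ : τ ∈ IA p) : σ0 * τ * σ0⁻¹ ∈ IA p := by
  obtain ⟨⟨τ', hτ'D⟩, hτ'I, rfl⟩ := Subgroup.mem_map.1 hτ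
  refine Subgroup.mem_map.2 ⟨⟨σ0, h0⟩ * ⟨τ', hτ'D⟩ * ⟨σ0, h0⟩⁻¹, ?_, rfl⟩
  have hN : ((padicPlace p).inertiaSubgroup ℚ).Normal := MonoidHom.normal_ker _
  exact hN.conj_mem _ hτ'I _

/-- `I_p` is normal in `G_p`. -/
theorem normal_Ip : (Ip p).Normal := by
  refine ⟨fun τ hτ g => ?_⟩
  rw [mem_Ip_iff_res] at hτ ⊢
  rw [map_mul, map_mul, map_inv]
  exact conj_mem_IA p (res_mem_DA p g) hτ

instance : (Ip p).Normal := normal_Ip p

/-- Statements about all of `I_A` can be checked on the images of inertial elements of `G_p`. -/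
theorem forall_IA_iff {P : Γ → Prop} :
    (∀ σ ∈ IA p, P σ) ↔ ∀ τ : Gp p, IsInertial p τ → P (localGaloisToGlobal p τ) := by
  constructor
  · intro h τ hτ
    exact h _ ((isInertial_iff p τ).1 hτ)
  · intro h σ hσ
    obtain ⟨τ, hτ, rfl⟩ := exists_inertial p hσ
    exact h τ hτ

/-- Statements about all of `D_A` can be checked on the image of `G_p`. -/
theorem forall_DA_iff {P : Γ → Prop} :
    (∀ σ ∈ DA p, P σ) ↔ ∀ g : Gp p, P (localGaloisToGlobal p g) := by
  constructor
  · intro h g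
    exact h _ (res_mem_DA p g)
  · intro h σ hσ
    obtain ⟨g, rfl⟩ := exists_res_eq p hσ
    exact h g

end Fermat.Agent.T1B.Plumb66.Inertia
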