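/-
Programme T1B (row 38 via S44), brick 533 `P1 PLUMBING` (helper66), part 4: ALL PLACES OVER `p`, and
`G_ℚ`-sets restricted to `G_p`, `I_p`.

Every valuation subring `A` of `ℚ̄` over `p` is a conjugate `γ • padicPlace p` (helper24's
`TWP59/Places24.exists_smul_eq`), and `I_A = γ I_{A₀} γ⁻¹`, `D_A = γ D_{A₀} γ⁻¹`.  Hence conditions of the
Prelude of the form `∀ A, A.LiesOverPrime p → ∀ σ ∈ A.inertiaSubgroupIn ℚ, …` on a `G_ℚ`-set can be
checked on the images `res τ` of the inertial elements `τ` of `G_p = Gal(ℚ̄_p/ℚ_p)`: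

* `exists_conj`                : `∃ γ, γ • padicPlace p = A ∧ (σ ∈ I_A ↔ γ⁻¹ σ γ ∈ I_{A₀}) ∧ (σ ∈ D_A ↔ …)`;
* **`forall_inertia_fixed_iff`** : `(∀ A over p, ∀ σ ∈ I_A, ∀ x, σ • x = x) ↔ ∀ τ inertial, ∀ x, res τ • x = x`;
* `forall_inertia_fixed_iff_of_stable` : the same for a `G_ℚ`-stable subset;
* `fixed_iff`                  : `(∀ σ ∈ I_{A₀}, σ x = x) ↔ ∀ τ inertial, τ (ι x) = ι x` for `x ∈ ℚ̄`;
* `locAct`, `inertiaAct`       : the restricted actions of `G_p` and `I_p` on a `G_ℚ`-module (as `def`s, to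
  be installed with `letI`), with `locAct_smul`, `inertiaAct_smul`.
-/
import Mathlib
import Fermat.Agent.TW.TWP59.Places24
import Fermat.Agent.T1B.Plumb66.Inertia

set_option autoImplicit false

open scoped Pointwise
open Fermat.Agent.TW.B5.Iface Fermat.Agent.T1.LocModel46 Fermat.Agent.T1B.Plumb66.Inertia

namespace Fermat.Agent.T1B.Plumb66.Places

local notation "Qbar" => AlgebraicClosure ℚ
local notation "Γ" => (AlgebraicClosure ℚ ≃ₐ[ℚ] AlgebraicClosure ℚ)

variable (p : ℕ) [Fact p.Prime]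

/-- Every place of `ℚ̄` over `p` is conjugate to the canonical one, compatibly with inertia and
decomposition groups. -/
theorem exists_conj (A : ValuationSubring Qbar) (hA : A.LiesOverPrime p) :
    ∃ γ : Γ, γ • padicPlace p = A ∧
      (∀ σ : Γ, σ ∈ A.inertiaSubgroupIn ℚ ↔ γ⁻¹ * σ * γ ∈ IA p) ∧
      (∀ σ : Γ, σ ∈ A.decompositionSubgroup ℚ ↔ γ⁻¹ * σ * γ ∈ DA p) := by
  have hp : p.Prime := Fact.out
  have h0 : (padicPlace p).LiesOverPrime p := liesOverPrime p
  obtain ⟨γ, hγ⟩ := Fermat.Agent.TW.TWP59.Places24.exists_smul_eq p hp (padicPlace p) A h0 hA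
  have hγ' : γ⁻¹ • A = padicPlace p := by rw [← hγ, inv_smul_smul]
  refine ⟨γ, hγ, fun σ => ⟨fun hσ => ?_, fun hσ => ?_⟩, fun σ => ⟨fun hσ => ?_, fun hσ => ?_⟩⟩
  · have := Fermat.Agent.TW.TWP59.Places24.mem_inertiaSubgroupIn_conj hp hA hσ γ⁻¹
    rwa [hγ', inv_inv] at this
  · have := Fermat.Agent.TW.TWP59.Places24.mem_inertiaSubgroupIn_conj hp h0 hσ γ
    rw [hγ] at this
    have e : γ * (γ⁻¹ * σ * γ) * γ⁻¹ = σ := by group
    rwa [e] at this
  · have := Fermat.Agent.TW.TWP59.Places24.mem_decompositionSubgroup_conj hσ γ⁻¹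
    rwa [hγ', inv_inv] at this
  · have := Fermat.Agent.TW.TWP59.Places24.mem_decompositionSubgroup_conj hσ γ
    rw [hγ] at this
    have e : γ * (γ⁻¹ * σ * γ) * γ⁻¹ = σ := by group
    rwa [e] at this

/-- **Unramifiedness at `p` of a `G_ℚ`-set, local form.** -/
theorem forall_inertia_fixed_iff {M : Type*} [MulAction Γ M] :
    (∀ A : ValuationSubring Qbar, A.LiesOverPrime p → ∀ σ ∈ A.inertiaSubgroupIn ℚ,
        ∀ x : M, σ • x = x) ↔
      ∀ τ : Gp p, IsInertial p τ → ∀ x : M, localGaloisToGlobal p τ • x = x := by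
  constructor
  · intro h τ hτ x
    exact h _ (liesOverPrime p) _ ((isInertial_iff p τ).1 hτ) x
  · intro h A hA σ hσ x
    obtain ⟨γ, -, hI, -⟩ := exists_conj p A hA
    obtain ⟨τ, hτ, hτσ⟩ := exists_inertial p ((hI σ).1 hσ)
    have h1 := h τ hτ (γ⁻¹ • x)
    rw [hτσ, mul_smul, mul_smul, smul_inv_smul] at h1
    have h2 := congrArg (fun y => γ • y) h1
    simpa using h2

/-- The same on a `G_ℚ`-stable subset. -/
theorem forall_inertia_fixed_iff_of_stable {M : Type*} [MulAction Γ M] (V : Set M)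
    (hV : ∀ (γ : Γ), ∀ x ∈ V, γ • x ∈ V) :
    (∀ A : ValuationSubring Qbar, A.LiesOverPrime p → ∀ σ ∈ A.inertiaSubgroupIn ℚ,
        ∀ x ∈ V, σ • x = x) ↔
      ∀ τ : Gp p, IsInertial p τ → ∀ x ∈ V, localGaloisToGlobal p τ • x = x := by
  constructor
  · intro h τ hτ x hx
    exact h _ (liesOverPrime p) _ ((isInertial_iff p τ).1 hτ) x hx
  · intro h A hA σ hσ x hx
    obtain ⟨γ, -, hI, -⟩ := exists_conj p A hA
    obtain ⟨τ, hτ, hτσ⟩ := exists_inertial p ((hI σ).1 hσ)
    have h1 := h τ hτ (γ⁻¹ • x) (hV _ x hx)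
    rw [hτσ, mul_smul, mul_smul, smul_inv_smul] at h1
    have h2 := congrArg (fun y => γ • y) h1
    simpa using h2

/-- An element of `ℚ̄` is fixed by the inertia group of the canonical place iff its image in `ℚ̄_p`
is fixed by all inertial elements of `G_p`. -/
theorem fixed_iff (x : Qbar) :
    (∀ σ ∈ IA p, σ x = x) ↔ ∀ τ : Gp p, IsInertial p τ → τ (padicEmbedding p x) = padicEmbedding p x := by
  rw [forall_IA_iff p (P := fun σ => σ x = x)]
  refine forall_congr' fun τ => forall_congr' fun _ => ?_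
  rw [← iota_res]
  exact ⟨fun h => by rw [h], fun h => iota_injective p h⟩

/-- The action of `G_p` on a `G_ℚ`-module, through `res` (install with `letI`). -/
@[reducible] noncomputable def locAct (M : Type*) [AddMonoid M] [DistribMulAction Γ M] :
    DistribMulAction (Gp p) M :=
  DistribMulAction.compHom M (localGaloisToGlobal p)

/-- The action of `I_p` on a `G_ℚ`-module, through `res` (install with `letI`). -/
@[reducible] noncomputable def inertiaAct (M : Type*) [AddMonoid M] [DistribMulAction Γ M] :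
    DistribMulAction (Ip p) M :=
  DistribMulAction.compHom M ((localGaloisToGlobal p).comp (Ip p).subtype)

theorem locAct_smul (M : Type*) [AddMonoid M] [DistribMulAction Γ M] (g : Gp p) (x : M) :
    (locAct p M).toMulAction.toSMul.smul g x = localGaloisToGlobal p g • x := rfl

theorem inertiaAct_smul (M : Type*) [AddMonoid M] [DistribMulAction Γ M] (τ : Ip p) (x : M) :
    (inertiaAct p M).toMulAction.toSMul.smul τ x = localGaloisToGlobal p (τ : Gp p) • x := rfl

end Fermat.Agent.T1B.Plumb66.Places
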