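/-
Programme T1B (row 38 via S44), brick 533 `P1 PLUMBING` (helper66), part 2: THE MOD `p` CYCLOTOMIC
CHARACTER on the local Galois group, in the `ℕ`-exponent form consumed by `KL46.Abstract.LocalData.chi`
and `TW/B5/Iface.ActsOnMuP`.

* `chiNat p τ := cycloExp p (res τ)` (Prelude's `ExtCitation.cycloExp`);
* `actsOnMuP`            : `ActsOnMuP p τ (chiNat p τ)`, i.e. `τ ζ = ζ ^ chiNat p τ` for `ζ ∈ μ_p(ℚ̄_p)`;
* `apply_root_global`    : `σ z = z ^ cycloExp p σ` for `z ∈ μ_p(ℚ̄)`;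
* `modEq_of_actsOnMuP`   : the exponent is unique mod `p`;
* `chiNat_mul`, `chiNat_one` : multiplicativity mod `p`;
* `exists_inertial_chi_ne_one`   : `p ≠ 2 → ∃ τ inertial, chiNat p τ ≢ 1 [MOD p]`;
* `exists_inertial_mul_modEq`    : `p ≠ 2 → ∃ τ inertial, ∃ m, chiNat p τ * m ≡ m + 1 [MOD p]`
  (the hypothesis `hm` of `KL46.Abstract.chi_line_mem_J1`).
-/
import Mathlib
import Fermat.Prelude.Def_GaloisRep_CompletionBridge
import Fermat.Prelude.Def_ExtCitation_KummerBridge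
import Fermat.Agent.S14.Fields
import Fermat.Agent.TW.B5.Iface
import Fermat.Agent.TW.B5.IfaceCT
import Fermat.Agent.TW.B5.LD65a
import Fermat.Agent.TW.B5.LG83X
import Fermat.Agent.T1B.Plumb66.Inertia

set_option autoImplicit false

open ExtCitation
open Fermat.Agent.TW.B5.Iface Fermat.Agent.T1.LocModel46

namespace Fermat.Agent.T1B.Plumb66.Cyclo

local notation "Qbar" => AlgebraicClosure ℚ
local notation "Γ" => (AlgebraicClosure ℚ ≃ₐ[ℚ] AlgebraicClosure ℚ)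

variable (p : ℕ) [Fact p.Prime]

/-- The mod `p` cyclotomic character of `τ ∈ G_p`, as a natural number `< p`. -/
noncomputable def chiNat (τ : Gp p) : ℕ := cycloExp p (localGaloisToGlobal p τ)

/-- `σ z = z ^ cycloExp p σ` for a `p`-th root of unity `z` of `ℚ̄`. -/
theorem apply_root_global (σ : Γ) {z : Qbar} (hz : z ^ p = 1) : σ z = z ^ cycloExp p σ :=
  Fermat.Agent.S14.Fields.apply_eq_pow_cycloExp p σ hz

/-- `τ ζ = ζ ^ chiNat p τ` for a `p`-th root of unity `ζ` of `ℚ̄_p`. -/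
theorem actsOnMuP (τ : Gp p) : ActsOnMuP p τ (chiNat p τ) := by
  intro ζ hζ
  obtain ⟨z, hz, rfl⟩ := Inertia.exists_root_preimage p (Fact.out : p.Prime).ne_zero hζ
  rw [← iota_res, apply_root_global p _ hz, map_pow]
  rfl

/-- There is a primitive `p`-th root of unity in `ℚ̄_p`. -/
theorem exists_primitiveRoot : ∃ ζ : Kbar p, IsPrimitiveRoot ζ p := by
  obtain ⟨z, hz⟩ := Fermat.Agent.S14.Fields.exists_zeta p
  exact ⟨padicEmbedding p z, hz.map_of_injective (padicEmbedding p).injective⟩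

/-- The exponent through which `τ` acts on `μ_p` is unique modulo `p`. -/
theorem modEq_of_actsOnMuP {τ : Gp p} {a b : ℕ} (ha : ActsOnMuP p τ a) (hb : ActsOnMuP p τ b) :
    a ≡ b [MOD p] := by
  obtain ⟨ζ, hζ⟩ := exists_primitiveRoot p
  have h : ζ ^ a = ζ ^ b := (ha ζ hζ.pow_eq_one).symm.trans (hb ζ hζ.pow_eq_one)
  have hfin : IsOfFinOrder ζ := by
    rw [← orderOf_pos_iff, ← hζ.eq_orderOf]
    exact (Fact.out : p.Prime).pos
  have := hfin.pow_eq_pow_iff_modEq.1 h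
  rwa [← hζ.eq_orderOf] at this

theorem chiNat_modEq {τ : Gp p} {a : ℕ} (ha : ActsOnMuP p τ a) : chiNat p τ ≡ a [MOD p] :=
  modEq_of_actsOnMuP p (actsOnMuP p τ) ha

theorem actsOnMuP_mul {τ τ' : Gp p} {a b : ℕ} (ha : ActsOnMuP p τ a) (hb : ActsOnMuP p τ' b) :
    ActsOnMuP p (τ * τ') (a * b) := by
  intro ζ hζ
  rw [AlgEquiv.mul_apply, hb ζ hζ, map_pow, ha ζ hζ, ← pow_mul]

theorem actsOnMuP_one : ActsOnMuP p (1 : Gp p) 1 := fun ζ _ => by
  rw [AlgEquiv.one_apply, pow_one]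

theorem chiNat_mul (τ τ' : Gp p) : chiNat p (τ * τ') ≡ chiNat p τ * chiNat p τ' [MOD p] :=
  chiNat_modEq p (actsOnMuP_mul p (actsOnMuP p τ) (actsOnMuP p τ'))

theorem chiNat_one : chiNat p (1 : Gp p) ≡ 1 [MOD p] :=
  chiNat_modEq p (actsOnMuP_one p)

/-- `chiNat p τ` is prime to `p`. -/
theorem chiNat_coprime (τ : Gp p) : Nat.Coprime (chiNat p τ) p := by
  have h1 : chiNat p (τ * τ⁻¹) ≡ 1 [MOD p] := by
    rw [mul_inv_cancel]
    exact chiNat_one p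
  have h : chiNat p τ * chiNat p τ⁻¹ ≡ 1 [MOD p] := (chiNat_mul p τ τ⁻¹).symm.trans h1
  rw [Nat.coprime_comm, (Fact.out : p.Prime).coprime_iff_not_dvd]
  intro hd
  have h0 : chiNat p τ * chiNat p τ⁻¹ ≡ 0 [MOD p] :=
    (Nat.modEq_zero_iff_dvd).2 (Dvd.dvd.mul_right hd _)
  have h2 : (1 : ℕ) ≡ 0 [MOD p] := h.symm.trans h0
  have := (Nat.modEq_zero_iff_dvd).1 h2
  exact (Fact.out : p.Prime).one_lt.ne' (Nat.dvd_one.1 this)

/-- **The mod `p` cyclotomic character is non-trivial on inertia** (`p` odd). -/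
theorem exists_inertial_chi_ne_one (hp2 : p ≠ 2) :
    ∃ τ : Gp p, IsInertial p τ ∧ ¬ chiNat p τ ≡ 1 [MOD p] := by
  obtain ⟨τ, a, hτ, ha, hne⟩ := Fermat.Agent.TW.B5.LD65a.cycloNontrivial p
    (Fermat.Agent.TW.B5.LG83X.toolkit p).inertiaFixedUnram hp2
  exact ⟨τ, hτ, fun h => hne ((chiNat_modEq p ha).symm.trans h)⟩

/-- The same in `G_ℚ`: the inertia group of the canonical place acts non-trivially on `μ_p`. -/
theorem exists_mem_IA_cycloExp_ne_one (hp2 : p ≠ 2) :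
    ∃ σ ∈ Inertia.IA p, ¬ cycloExp p σ ≡ 1 [MOD p] := by
  obtain ⟨τ, hτ, h⟩ := exists_inertial_chi_ne_one p hp2
  exact ⟨localGaloisToGlobal p τ, (Inertia.isInertial_iff p τ).1 hτ, h⟩

/-- The hypothesis `hm` of `KL46.Abstract.chi_line_mem_J1`: an inertial `τ` and `m` with
`(χ(τ) - 1) m ≡ 1 [MOD p]`. -/
theorem exists_inertial_mul_modEq (hp2 : p ≠ 2) :
    ∃ τ : Gp p, IsInertial p τ ∧ ∃ m : ℕ, chiNat p τ * m ≡ m + 1 [MOD p] := by
  obtain ⟨τ, hτ, h⟩ := exists_inertial_chi_ne_one p hp2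
  refine ⟨τ, hτ, ?_⟩
  have : NeZero p := ⟨(Fact.out : p.Prime).ne_zero⟩
  have hne : ((chiNat p τ : ℕ) : ZMod p) - 1 ≠ 0 := by
    intro h0
    apply h
    rw [← ZMod.natCast_eq_natCast_iff, Nat.cast_one]
    exact sub_eq_zero.1 h0
  refine ⟨((((chiNat p τ : ℕ) : ZMod p) - 1)⁻¹).val, ?_⟩
  rw [← ZMod.natCast_eq_natCast_iff]
  push_cast
  rw [ZMod.natCast_zmod_val]
  have := mul_inv_cancel₀ hne
  linear_combination this

end Fermat.Agent.T1B.Plumb66.Cyclo
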