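/-
Programme T1B (row 38 via S44), brick 533 `P1 PLUMBING` (helper66), part 5: THE GROUP OF ONE-UNITS
`U = 1 + 𝔪_{ℚ̄_p}` as a `G_p`-module, in the shape consumed by `KL46.Abstract.exists_toric_correction`
(`U : Type*` with `[CommGroup U] [MulDistribMulAction I U]`, `ζ w : U`, `s • w = w * ζ ^ c s`).

* `oneUnits p : Subgroup (Kbar p)ˣ`, `mem_oneUnits`, `oneUnits.mk ω h`;
* `MulDistribMulAction (Gp p) (oneUnits p)` (hence of every subgroup, e.g. `Inertia.Ip p`), `coe_smul`;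
* `muP ζ hζ : oneUnits p` for `ζ ^ p = 1`, `smul_muP : τ • muP ζ = muP ζ ^ chiNat p τ`;
* `exists_oneUnit_of_cocycle` : H1U45's (PEU) in group form: if `τ α = ζ ^ c τ · α` on inertia and
  `‖α‖ ∈ p^ℤ` then `∃ w : oneUnits p, ∀ τ ∈ I_p, τ • w = w * muP ζ ^ c τ`.
-/
import Mathlib
import Fermat.Agent.T1.H1U45
import Fermat.Agent.T1B.Plumb66.Cyclo

set_option autoImplicit false

open Fermat.Agent.TW.B5.Iface Fermat.Agent.T1.LocModel46

namespace Fermat.Agent.T1B.Plumb66.OneUnits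

variable (p : ℕ) [Fact p.Prime]

/-- The group `1 + 𝔪_{K̄}` of one-units of `K̄ = ℚ̄_p`. -/
def oneUnits : Subgroup (Kbar p)ˣ where
  carrier := {u | ‖(u : Kbar p) - 1‖ < 1}
  mul_mem' {a b} ha hb := by
    show ‖((a * b : (Kbar p)ˣ) : Kbar p) - 1‖ < 1
    rw [Units.val_mul]
    exact Fermat.Agent.T1.H1U45.oneUnit_mul p ha hb
  one_mem' := by
    show ‖((1 : (Kbar p)ˣ) : Kbar p) - 1‖ < 1
    rw [Units.val_one, sub_self, norm_zero]
    exact zero_lt_one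
  inv_mem' {a} ha := by
    show ‖((a⁻¹ : (Kbar p)ˣ) : Kbar p) - 1‖ < 1
    rw [Units.val_inv_eq_inv_val]
    exact Fermat.Agent.T1.H1U45.oneUnit_inv p ha

theorem mem_oneUnits {u : (Kbar p)ˣ} : u ∈ oneUnits p ↔ ‖(u : Kbar p) - 1‖ < 1 := Iff.rfl

theorem ne_zero_of_oneUnit {ω : Kbar p} (h : ‖ω - 1‖ < 1) : ω ≠ 0 := by
  intro h0
  have := Fermat.Agent.T1.H1U45.norm_eq_one_of_oneUnit p h
  rw [h0, norm_zero] at this
  exact zero_ne_one this

/-- A one-unit of `K̄` as an element of the group `oneUnits p`. -/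
noncomputable def oneUnits.mk (ω : Kbar p) (h : ‖ω - 1‖ < 1) : oneUnits p :=
  ⟨Units.mk0 ω (ne_zero_of_oneUnit p h), h⟩

@[simp] theorem oneUnits.coe_mk (ω : Kbar p) (h : ‖ω - 1‖ < 1) :
    (((oneUnits.mk p ω h : oneUnits p) : (Kbar p)ˣ) : Kbar p) = ω := rfl

theorem oneUnits.ext {u v : oneUnits p}
    (h : ((u : (Kbar p)ˣ) : Kbar p) = ((v : (Kbar p)ˣ) : Kbar p)) : u = v :=
  Subtype.ext (Units.ext h)

theorem norm_sub_one (u : oneUnits p) : ‖((u : (Kbar p)ˣ) : Kbar p) - 1‖ < 1 := u.2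

/-- The Galois action on one-units. -/
noncomputable instance : MulDistribMulAction (Gp p) (oneUnits p) where
  smul τ u := ⟨Units.map ((τ : Kbar p →+* Kbar p) : Kbar p →* Kbar p) (u : (Kbar p)ˣ), by
    show ‖τ ((u : (Kbar p)ˣ) : Kbar p) - 1‖ < 1
    have e : τ ((u : (Kbar p)ˣ) : Kbar p) - 1 = τ (((u : (Kbar p)ˣ) : Kbar p) - 1) := by
      rw [map_sub, map_one]
    rw [e, norm_gal]
    exact u.2⟩
  one_smul u := oneUnits.ext p rfl
  mul_smul σ τ u := oneUnits.ext p rfl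
  smul_mul τ u v := oneUnits.ext p (by
    show τ (((u * v : oneUnits p) : (Kbar p)ˣ) : Kbar p) = _
    simp only [Subgroup.coe_mul, Units.val_mul, map_mul]
    rfl)
  smul_one τ := oneUnits.ext p (by
    show τ (((1 : oneUnits p) : (Kbar p)ˣ) : Kbar p) = _
    simp)

@[simp] theorem coe_smul (τ : Gp p) (u : oneUnits p) :
    (((τ • u : oneUnits p) : (Kbar p)ˣ) : Kbar p) = τ ((u : (Kbar p)ˣ) : Kbar p) := rfl

@[simp] theorem coe_mul (u v : oneUnits p) :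
    (((u * v : oneUnits p) : (Kbar p)ˣ) : Kbar p) =
      ((u : (Kbar p)ˣ) : Kbar p) * ((v : (Kbar p)ˣ) : Kbar p) := rfl

@[simp] theorem coe_pow (u : oneUnits p) (n : ℕ) :
    (((u ^ n : oneUnits p) : (Kbar p)ˣ) : Kbar p) = ((u : (Kbar p)ˣ) : Kbar p) ^ n := by
  rw [Subgroup.coe_pow, Units.val_pow_eq_pow_val]

/-- A `p`-th root of unity as a one-unit. -/
noncomputable def muP (ζ : Kbar p) (hζ : ζ ^ p = 1) : oneUnits p :=
  oneUnits.mk p ζ (Fermat.Agent.T1.H1U45.norm_muP_sub_one_lt p hζ)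

@[simp] theorem coe_muP (ζ : Kbar p) (hζ : ζ ^ p = 1) :
    (((muP p ζ hζ : oneUnits p) : (Kbar p)ˣ) : Kbar p) = ζ := rfl

theorem muP_pow_p (ζ : Kbar p) (hζ : ζ ^ p = 1) : muP p ζ hζ ^ p = 1 :=
  oneUnits.ext p (by rw [coe_pow, coe_muP, hζ]; rfl)

/-- `G_p` acts on `μ_p ⊂ 1 + 𝔪` through the cyclotomic character. -/
theorem smul_muP (τ : Gp p) (ζ : Kbar p) (hζ : ζ ^ p = 1) :
    τ • muP p ζ hζ = muP p ζ hζ ^ Cyclo.chiNat p τ :=
  oneUnits.ext p (by rw [coe_smul, coe_pow, coe_muP]; exact Cyclo.actsOnMuP p τ ζ hζ)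

/-- **(PEU) in group form** (`H1U45.exists_oneUnit_of_muP_cocycle`): if inertia acts on `α` through
`μ_p` (`τ α = ζ ^ c τ · α`) and `‖α‖ ∈ p^ℤ`, there is a one-unit `w` with `τ • w = w * ζ ^ c τ` for all
inertial `τ`. -/
theorem exists_oneUnit_of_cocycle {α ζ : Kbar p} (hζ : ζ ^ p = 1) {k : ℤ}
    (hk : ‖α‖ = (p : ℝ) ^ k) (c : Gp p → ℕ)
    (h : ∀ τ : Gp p, IsInertial p τ → τ α = ζ ^ c τ * α) :
    ∃ w : oneUnits p, ∀ τ : Gp p, IsInertial p τ → τ • w = w * muP p ζ hζ ^ c τ := by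
  obtain ⟨ω, hω, hcob⟩ := Fermat.Agent.T1.H1U45.exists_oneUnit_of_muP_cocycle p hk c h
  refine ⟨oneUnits.mk p ω hω, fun τ hτ => oneUnits.ext p ?_⟩
  rw [coe_smul, coe_mul, coe_pow, coe_muP, oneUnits.coe_mk, hcob τ hτ, mul_comm]

end Fermat.Agent.T1B.Plumb66.OneUnits
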