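/-
Programme T1B (row 38 via S44), brick 533 `P1 PLUMBING` (helper66), part 3: POINTS OF ELLIPTIC CURVES.

`W : Affine ℚ` a Weierstrass curve over `ℚ`, `ι = padicEmbedding p : ℚ̄ → ℚ̄_p`,
`res = localGaloisToGlobal p : G_p → G_ℚ`.

* `ptMap p W : (W⁄ℚ̄).Point →+ (W⁄ℚ̄_p).Point` (`= Point.map ι`), injective;
* `ptMap_res`            : `ptMap (res τ • P) = τ • ptMap P` (Galois actions of the Prelude,
  `WeierstrassCurve.Affine.Point.instDistribMulActionAlgEquiv`);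
* `torsMap p W n`        : the induced map on `n`-torsion, `torsMap_res`;
* **`torsMap_bijective`** : for `Δ ≠ 0` and odd `n`, `E[n](ℚ̄) → E[n](ℚ̄_p)` is bijective
  (both sides have `n²` elements, `DivPoly.CardEq29.card_torsionBy_eq`);
* `torsEquiv`            : the resulting additive equivalence, `torsEquiv_res`;
* `exists_ptMap_eq`      : every `n`-torsion point of `E(ℚ̄_p)` comes from `E(ℚ̄)`.
-/
import Mathlib
import Fermat.Prelude.Def_GaloisRep_CompletionBridge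
import Fermat.Prelude.Def_FLTPrelim_GaloisRep
import Fermat.Agent.TW.B5.Iface
import Fermat.Agent.DivPoly.CardEq29

set_option autoImplicit false

open WeierstrassCurve WeierstrassCurve.Affine WeierstrassCurve.Affine.Point
open Fermat.Agent.TW.B5.Iface

namespace Fermat.Agent.T1B.Plumb66.Points

local notation "Qbar" => AlgebraicClosure ℚ
local notation "Γ" => (AlgebraicClosure ℚ ≃ₐ[ℚ] AlgebraicClosure ℚ)

variable (p : ℕ) [Fact p.Prime] [DecidableEq (Kbar p)] (W : Affine ℚ)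

/-- `E(ℚ̄) → E(ℚ̄_p)`. -/
noncomputable def ptMap : (W⁄Qbar).Point →+ (W⁄(Kbar p)).Point :=
  Point.map (padicEmbedding p)

theorem ptMap_injective : Function.Injective (ptMap p W) :=
  Point.map_injective (padicEmbedding p)

@[simp] theorem ptMap_zero' : ptMap p W 0 = 0 := _root_.map_zero _

theorem ptMap_some {x y : Qbar} (h : (W⁄Qbar).Nonsingular x y) :
    ptMap p W (Point.some x y h) =
      Point.some (padicEmbedding p x) (padicEmbedding p y)
        ((W.baseChange_nonsingular (padicEmbedding p).injective x y).2 h) := rfl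

/-- **Equivariance** of `E(ℚ̄) → E(ℚ̄_p)` for `res : G_p → G_ℚ`. -/
theorem ptMap_res (τ : Gp p) (P : (W⁄Qbar).Point) :
    ptMap p W (localGaloisToGlobal p τ • P) = τ • ptMap p W P := by
  cases P with
  | zero => rfl
  | some x y h =>
    show Point.map (padicEmbedding p) (Point.map (localGaloisToGlobal p τ).toAlgHom _) =
      Point.map τ.toAlgHom (Point.map (padicEmbedding p) _)
    simp only [Point.map_some]
    congr 1
    · exact padicEmbedding_localGaloisToGlobal p τ x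
    · exact padicEmbedding_localGaloisToGlobal p τ y

theorem ptMap_mem_torsionBy {n : ℕ} {P : (W⁄Qbar).Point}
    (hP : P ∈ Submodule.torsionBy ℤ (W⁄Qbar).Point n) :
    ptMap p W P ∈ Submodule.torsionBy ℤ (W⁄(Kbar p)).Point n := by
  rw [Submodule.mem_torsionBy_iff] at hP ⊢
  rw [← _root_.map_zsmul, hP, _root_.map_zero]

/-- `E[n](ℚ̄) → E[n](ℚ̄_p)`. -/
noncomputable def torsMap (n : ℕ) :
    Submodule.torsionBy ℤ (W⁄Qbar).Point n →+ Submodule.torsionBy ℤ (W⁄(Kbar p)).Point n where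
  toFun P := ⟨ptMap p W P.1, ptMap_mem_torsionBy p W P.2⟩
  map_zero' := Subtype.ext (_root_.map_zero _)
  map_add' P Q := Subtype.ext (_root_.map_add _ P.1 Q.1)

@[simp] theorem coe_torsMap (n : ℕ) (P : Submodule.torsionBy ℤ (W⁄Qbar).Point n) :
    ((torsMap p W n P : Submodule.torsionBy ℤ (W⁄(Kbar p)).Point n) : (W⁄(Kbar p)).Point) =
      ptMap p W P.1 := rfl

theorem torsMap_injective (n : ℕ) : Function.Injective (torsMap p W n) := fun _ _ h =>
  Subtype.ext (ptMap_injective p W (congrArg Subtype.val h))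

theorem torsMap_res (n : ℕ) (τ : Gp p) (P : Submodule.torsionBy ℤ (W⁄Qbar).Point n) :
    torsMap p W n (localGaloisToGlobal p τ • P) = τ • torsMap p W n P :=
  Subtype.ext (ptMap_res p W τ P.1)

theorem baseChange_Δ_ne_zero (hΔ : W.Δ ≠ 0) (K : Type*) [Field K] [Algebra ℚ K] :
    (W⁄K).Δ ≠ 0 := by
  show (W.map (algebraMap ℚ K)).Δ ≠ 0
  rw [WeierstrassCurve.map_Δ]
  exact fun h => hΔ ((algebraMap ℚ K).injective (by rw [h, _root_.map_zero]))

/-- **`E[n](ℚ̄) → E[n](ℚ̄_p)` is bijective** (`n` odd, `Δ ≠ 0`). -/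
theorem torsMap_bijective (hΔ : W.Δ ≠ 0) {n : ℕ} (hn : Odd n) :
    Function.Bijective (torsMap p W n) := by
  classical
  have hnQ : ((n : ℕ) : Qbar) ≠ 0 := Nat.cast_ne_zero.mpr hn.pos.ne'
  have hnK : ((n : ℕ) : Kbar p) ≠ 0 := Nat.cast_ne_zero.mpr hn.pos.ne'
  have f1 : Finite (Submodule.torsionBy ℤ (W⁄Qbar).Point (n : ℤ)) :=
    Fermat.Agent.DivPoly.CountFinal.finite_torsionBy (W := W⁄Qbar) hn hnQ
  have f2 : Finite (Submodule.torsionBy ℤ (W⁄(Kbar p)).Point (n : ℤ)) :=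
    Fermat.Agent.DivPoly.CountFinal.finite_torsionBy (W := W⁄(Kbar p)) hn hnK
  have c1 := Fermat.Agent.DivPoly.CardEq29.card_torsionBy_eq (W := W⁄Qbar)
    (baseChange_Δ_ne_zero W hΔ Qbar) hn
  have c2 := Fermat.Agent.DivPoly.CardEq29.card_torsionBy_eq (W := W⁄(Kbar p))
    (baseChange_Δ_ne_zero W hΔ (Kbar p)) hn
  exact (Nat.bijective_iff_injective_and_card _).2 ⟨torsMap_injective p W n, c1.trans c2.symm⟩

/-- `E[n](ℚ̄) ≃+ E[n](ℚ̄_p)` (`n` odd, `Δ ≠ 0`). -/
noncomputable def torsEquiv (hΔ : W.Δ ≠ 0) {n : ℕ} (hn : Odd n) :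
    Submodule.torsionBy ℤ (W⁄Qbar).Point n ≃+ Submodule.torsionBy ℤ (W⁄(Kbar p)).Point n :=
  AddEquiv.ofBijective (torsMap p W n) (torsMap_bijective p W hΔ hn)

@[simp] theorem torsEquiv_apply (hΔ : W.Δ ≠ 0) {n : ℕ} (hn : Odd n)
    (P : Submodule.torsionBy ℤ (W⁄Qbar).Point n) :
    torsEquiv p W hΔ hn P = torsMap p W n P := rfl

theorem torsEquiv_res (hΔ : W.Δ ≠ 0) {n : ℕ} (hn : Odd n) (τ : Gp p)
    (P : Submodule.torsionBy ℤ (W⁄Qbar).Point n) :
    torsEquiv p W hΔ hn (localGaloisToGlobal p τ • P) = τ • torsEquiv p W hΔ hn P :=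
  torsMap_res p W n τ P

/-- Every `n`-torsion point of `E(ℚ̄_p)` comes from `E(ℚ̄)` (`n` odd, `Δ ≠ 0`). -/
theorem exists_ptMap_eq (hΔ : W.Δ ≠ 0) {n : ℕ} (hn : Odd n) {Q : (W⁄(Kbar p)).Point}
    (hQ : (n : ℤ) • Q = 0) : ∃ P : (W⁄Qbar).Point, (n : ℤ) • P = 0 ∧ ptMap p W P = Q := by
  obtain ⟨P, hP⟩ := (torsMap_bijective p W hΔ hn).2
    ⟨Q, (Submodule.mem_torsionBy_iff _ _).2 hQ⟩
  exact ⟨P.1, (Submodule.mem_torsionBy_iff _ _).1 P.2, congrArg Subtype.val hP⟩

end Fermat.Agent.T1B.Plumb66.Points
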