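/-
Programme T1B (row 38 via S44), brick 533 `P1 PLUMBING` (helper66), part 6: `KL46.Abstract` with
`I := I_p` acting on a `G_ℚ`-module through `res`, restated WITHOUT instance juggling.

`M` a `G_ℚ`-module (e.g. `JZero N`), `J1 ≤ J0`, `K` subgroups of `M`.  Hypotheses are stated for the
images `res τ` of the inertial elements `τ ∈ G_p` (equivalently, by `Inertia.forall_IA_iff`, for all
`σ` in the inertia group `I_A ⊂ G_ℚ` of the canonical place).

* `Hyp p J0 J1 K`              : the three hypotheses of `KL46.Abstract.LocalData` (`sub_mem_J0`,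
  `sub_mem_J1`, `toric`) in this vocabulary;
* `Hyp.localData`              : the resulting `KL46.Abstract.LocalData ↥(Ip p) M p`
  (action `Places.inertiaAct p M`, `chi := chiNat p`);
* `Hyp.exists_eigen`           : (KL-ss);
* `Hyp.eq_bot_of_no_stable_line`;
* `Hyp.chi_line_mem_J1`        : a `χ`-eigenvector killed by `p` lies in `J1` (`p ≠ 2`);
* `Hyp.sub_mem_J1_of_red_eq`   : (KL-old).
-/
import Mathlib
import Fermat.Agent.T1.KL46.Abstract
import Fermat.Agent.T1B.Plumb66.Cyclo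
import Fermat.Agent.T1B.Plumb66.Places

set_option autoImplicit false
set_option linter.style.haveILetI false

open Fermat.Agent.TW.B5.Iface Fermat.Agent.T1.LocModel46 Fermat.Agent.T1.KL46.Abstract
open Fermat.Agent.T1B.Plumb66.Inertia Fermat.Agent.T1B.Plumb66.Cyclo Fermat.Agent.T1B.Plumb66.Places

namespace Fermat.Agent.T1B.Plumb66.KLInst

local notation "Qbar" => AlgebraicClosure ℚ
local notation "Γ" => (AlgebraicClosure ℚ ≃ₐ[ℚ] AlgebraicClosure ℚ)

variable (p : ℕ) [Fact p.Prime]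
variable {M : Type*} [AddCommGroup M] [DistribMulAction Γ M]

/-- The hypotheses of `KL46.Abstract.LocalData` for `I_p` acting through `res`. -/
structure Hyp (J0 J1 K : AddSubgroup M) : Prop where
  J1_le : J1 ≤ J0
  sub_mem_J0 : ∀ τ : Gp p, IsInertial p τ → ∀ x : M, localGaloisToGlobal p τ • x - x ∈ J0
  sub_mem_J1 : ∀ τ : Gp p, IsInertial p τ → ∀ x ∈ J0, localGaloisToGlobal p τ • x - x ∈ J1
  toric : ∀ x ∈ J1, x ∈ K → p • x = 0 → ∀ τ : Gp p, IsInertial p τ →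
    localGaloisToGlobal p τ • x = chiNat p τ • x

variable {p} {J0 J1 K : AddSubgroup M}

/-- The `KL46` local data attached to the hypotheses. -/
noncomputable def Hyp.localData (H : Hyp p J0 J1 K) :
    @LocalData ↥(Ip p) M _ _ (inertiaAct p M) p :=
  letI := inertiaAct p M
  { J0 := J0
    J1 := J1
    K := K
    chi := fun τ => chiNat p (τ : Gp p)
    J1_le := H.J1_le
    sub_mem_J0 := fun τ x => H.sub_mem_J0 τ ((mem_Ip p).1 τ.2) x
    sub_mem_J1 := fun τ x hx => H.sub_mem_J1 τ ((mem_Ip p).1 τ.2) x hx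
    toric := fun x hx1 hxK hxp τ => H.toric x hx1 hxK hxp τ ((mem_Ip p).1 τ.2) }

/-- **(KL-ss).** A nonzero inertia-stable subgroup of `K ∩ M[p]` contains a nonzero vector which is
fixed by inertia or on which inertia acts through `χ`. -/
theorem Hyp.exists_eigen (H : Hyp p J0 J1 K) (V : AddSubgroup M)
    (hVI : ∀ τ : Gp p, IsInertial p τ → ∀ x ∈ V, localGaloisToGlobal p τ • x ∈ V)
    (hVK : V ≤ K) (hVp : ∀ x ∈ V, p • x = 0) (hV : V ≠ ⊥) :
    ∃ x ∈ V, x ≠ 0 ∧ ((∀ τ : Gp p, IsInertial p τ → localGaloisToGlobal p τ • x = x) ∨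
      (∀ τ : Gp p, IsInertial p τ → localGaloisToGlobal p τ • x = chiNat p τ • x)) := by
  letI := inertiaAct p M
  obtain ⟨x, hxV, hx0, h⟩ := Fermat.Agent.T1.KL46.Abstract.exists_eigen H.localData V
    (fun τ x hx => hVI τ ((mem_Ip p).1 τ.2) x hx) hVK hVp hV
  refine ⟨x, hxV, hx0, ?_⟩
  rcases h with h | h
  · exact Or.inl fun τ hτ => h ⟨τ, (mem_Ip p).2 hτ⟩
  · exact Or.inr fun τ hτ => h ⟨τ, (mem_Ip p).2 hτ⟩

/-- **Supersingular conclusion.** -/
theorem Hyp.eq_bot_of_no_stable_line (H : Hyp p J0 J1 K) (V : AddSubgroup M)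
    (hVI : ∀ τ : Gp p, IsInertial p τ → ∀ x ∈ V, localGaloisToGlobal p τ • x ∈ V)
    (hVK : V ≤ K) (hVp : ∀ x ∈ V, p • x = 0)
    (hirr : ∀ x ∈ V, x ≠ 0 → ∃ τ : Gp p, IsInertial p τ ∧
      localGaloisToGlobal p τ • x ∉ AddSubgroup.zmultiples x) : V = ⊥ := by
  by_contra hV
  obtain ⟨x, hxV, hx0, h | h⟩ := H.exists_eigen V hVI hVK hVp hV
  · obtain ⟨τ, hτ, hs⟩ := hirr x hxV hx0
    rw [h τ hτ] at hs
    exact hs (AddSubgroup.mem_zmultiples x)
  · obtain ⟨τ, hτ, hs⟩ := hirr x hxV hx0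
    rw [h τ hτ] at hs
    exact hs (AddSubgroup.nsmul_mem _ (AddSubgroup.mem_zmultiples x) _)

/-- A `χ`-eigenvector killed by `p` lies in `J1` (`p` odd: `χ ≠ 1` on inertia). -/
theorem Hyp.chi_line_mem_J1 (H : Hyp p J0 J1 K) (hp2 : p ≠ 2) {x : M} (hxp : p • x = 0)
    (hx : ∀ τ : Gp p, IsInertial p τ → localGaloisToGlobal p τ • x = chiNat p τ • x) :
    x ∈ J1 := by
  letI := inertiaAct p M
  obtain ⟨τ₀, hτ₀, m, hm⟩ := exists_inertial_mul_modEq p hp2
  exact Fermat.Agent.T1.KL46.Abstract.chi_line_mem_J1 H.localData hxp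
    (fun τ => hx τ ((mem_Ip p).1 τ.2)) ⟨τ₀, (mem_Ip p).2 hτ₀⟩ hm

/-- **(KL-old)**, elementwise. -/
theorem Hyp.sub_mem_J1_of_red_eq (H : Hyp p J0 J1 K) {Ps : Type*} [AddCommGroup Ps]
    (red : J0 →+ Ps) (hker : ∀ x : J0, red x = 0 ↔ (x : M) ∈ J1)
    {x y : M} (hx : x ∈ J0) (hy : y ∈ J0) (h : red ⟨x, hx⟩ = red ⟨y, hy⟩) : x - y ∈ J1 := by
  letI := inertiaAct p M
  exact Fermat.Agent.T1.KL46.Abstract.quotient_embeds H.localData red hker hx hy h

/-- The hypotheses may be given on the global inertia group `I_A` of the canonical place. -/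
theorem Hyp.of_global (h10 : J1 ≤ J0)
    (h0 : ∀ σ ∈ IA p, ∀ x : M, σ • x - x ∈ J0)
    (h1 : ∀ σ ∈ IA p, ∀ x ∈ J0, σ • x - x ∈ J1)
    (ht : ∀ x ∈ J1, x ∈ K → p • x = 0 → ∀ σ ∈ IA p, σ • x = ExtCitation.cycloExp p σ • x) :
    Hyp p J0 J1 K where
  J1_le := h10
  sub_mem_J0 τ hτ x := h0 _ ((isInertial_iff p τ).1 hτ) x
  sub_mem_J1 τ hτ x hx := h1 _ ((isInertial_iff p τ).1 hτ) x hx
  toric x hx1 hxK hxp τ hτ := ht x hx1 hxK hxp _ ((isInertial_iff p τ).1 hτ)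

end Fermat.Agent.T1B.Plumb66.KLInst
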